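import Fermat.Agent.S55.Local.Defs
import Fermat.Prelude.Thm_Algebra_finite_maximalSpectrum_and_bijective_localization_of_module_finite
import Fermat.Prelude.Thm_IsLocalRing_isAdicComplete_of_module_finite

/-!
# S55 layer L, piece LF0 : the ring of integers of a local field  (helper715)

`A` complete DVR with finite residue field, `F = Frac A` of characteristic zero, `L / F` finite.
We work with an `A`-algebra structure on `L` compatible with the tower
(`[Algebra A L] [IsScalarTower A F L]`); to apply the results to the instance-free definitions of
`Defs.lean` use

```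
letI : Algebra A L := algAL A F L
haveI : IsScalarTower A F L := isScalarTower_algAL A F L
```

Main results: `integralClosure A L` is a complete discrete valuation ring with finite residue
field, finite over `A`, with fraction field `L`.
-/

set_option autoImplicit false
set_option linter.unusedSectionVars false
set_option linter.style.haveILetI false

namespace Fermat.Agent.S55.Local.H715

open Fermat.Agent.S55.Local IsLocalRing

section Alg

variable (A F : Type) [CommRing A] [Field F] [Algebra A F]
  (L : Type) [Field L] [Algebra F L]

/-- The `A`-algebra structure on `L` (NOT a global instance). -/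
@[reducible] def algAL : Algebra A L := (toL A F L).toAlgebra

lemma isScalarTower_algAL : @IsScalarTower A F L _ _ (algAL A F L).toSMul :=
  letI := algAL A F L
  IsScalarTower.of_algebraMap_eq (fun _ => rfl)

variable [Algebra A L] [IsScalarTower A F L]

lemma toL_eq_algebraMap : toL A F L = algebraMap A L := by
  ext a
  rw [toL_apply, ← IsScalarTower.algebraMap_apply]

lemma isInt_iff (x : L) : IsInt A F L x ↔ IsIntegral A x := by
  unfold IsInt IsIntegral
  rw [toL_eq_algebraMap]

lemma isInt_iff_mem (x : L) : IsInt A F L x ↔ x ∈ integralClosure A L := isInt_iff A F L x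

end Alg

section Integers

variable (A F : Type) [CommRing A] [IsDomain A] [IsDiscreteValuationRing A]
  [IsAdicComplete (IsLocalRing.maximalIdeal A) A] [Finite (IsLocalRing.ResidueField A)]
  [Field F] [CharZero F] [Algebra A F] [IsFractionRing A F]
  (L : Type) [Field L] [Algebra F L] [FiniteDimensional F L]
  [Algebra A L] [IsScalarTower A F L]

include F

lemma isFractionRing_OL : IsFractionRing (integralClosure A L) L :=
  IsIntegralClosure.isFractionRing_of_finite_extension A F L (integralClosure A L)

lemma finite_OL : Module.Finite A (integralClosure A L) :=
  IsIntegralClosure.finite A F L (integralClosure A L)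

lemma isDedekindDomain_OL : IsDedekindDomain (integralClosure A L) :=
  IsIntegralClosure.isDedekindDomain A F L (integralClosure A L)

lemma isNoetherianRing_OL : IsNoetherianRing (integralClosure A L) :=
  haveI := isDedekindDomain_OL A F L
  inferInstance

lemma algebraMap_injective_OL : Function.Injective (algebraMap A (integralClosure A L)) := by
  have h1 : Function.Injective (algebraMap A L) := by
    rw [IsScalarTower.algebraMap_eq A F L]
    exact (algebraMap F L).injective.comp (IsFractionRing.injective A F)
  intro x y h
  apply h1
  have := congrArg (algebraMap (integralClosure A L) L) h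
  simpa [← IsScalarTower.algebraMap_apply] using this

lemma not_isField_OL : ¬ IsField (integralClosure A L) := by
  intro h
  have hint : Algebra.IsIntegral A (integralClosure A L) := inferInstance
  exact IsDiscreteValuationRing.not_isField A
    (isField_of_isIntegral_of_isField (algebraMap_injective_OL A F L) h)

/-- The ring of integers has a unique maximal ideal. -/
lemma subsingleton_maximalSpectrum_OL : Subsingleton (MaximalSpectrum (integralClosure A L)) := by
  haveI := finite_OL A F L
  obtain ⟨-, hbij, -, -⟩ :=
    Algebra.finite_maximalSpectrum_and_bijective_localization_of_module_finite (𝒪 := A)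
      (integralClosure A L)
  classical
  refine ⟨fun I J => ?_⟩
  by_contra hIJ
  obtain ⟨b, hb⟩ := hbij.2 (Pi.single I 1)
  obtain ⟨b', hb'⟩ := hbij.2 (Pi.single J 1)
  have hbb' : b * b' = 0 := by
    apply hbij.1
    rw [map_mul, hb, hb', map_zero]
    ext K
    simp only [Pi.mul_apply, Pi.zero_apply]
    by_cases hK : K = I
    · subst hK
      rw [Pi.single_eq_of_ne hIJ, mul_zero]
    · rw [Pi.single_eq_of_ne hK, zero_mul]
  rcases mul_eq_zero.1 hbb' with h0 | h0
  · rw [h0, map_zero] at hb
    have := congrFun hb I
    simp at this
  · rw [h0, map_zero] at hb'
    have := congrFun hb' J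
    simp at this

lemma isLocalRing_OL : IsLocalRing (integralClosure A L) := by
  haveI := subsingleton_maximalSpectrum_OL A F L
  obtain ⟨M, hM⟩ := Ideal.exists_maximal (integralClosure A L)
  refine IsLocalRing.of_unique_max_ideal ⟨M, hM, fun J hJ => ?_⟩
  have := Subsingleton.elim (⟨J, hJ⟩ : MaximalSpectrum (integralClosure A L)) ⟨M, hM⟩
  exact congrArg MaximalSpectrum.asIdeal this

lemma isDiscreteValuationRing_OL : IsDiscreteValuationRing (integralClosure A L) := by
  haveI := isLocalRing_OL A F L
  haveI := isNoetherianRing_OL A F L
  exact ((IsDiscreteValuationRing.TFAE (integralClosure A L) (not_isField_OL A F L)).out 0 2).2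
    (isDedekindDomain_OL A F L)

lemma isLocalHom_OL :
    letI := isLocalRing_OL A F L
    IsLocalHom (algebraMap A (integralClosure A L)) := by
  letI := isLocalRing_OL A F L
  have hint : (algebraMap A (integralClosure A L)).IsIntegral :=
    fun x => Algebra.IsIntegral.isIntegral (R := A) x
  exact hint.isLocalHom (algebraMap_injective_OL A F L)

lemma isAdicComplete_OL :
    letI := isLocalRing_OL A F L
    IsAdicComplete (maximalIdeal (integralClosure A L)) (integralClosure A L) := by
  letI := isLocalRing_OL A F L
  haveI := finite_OL A F L
  haveI := isLocalHom_OL A F L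
  exact IsLocalRing.isAdicComplete_of_module_finite (𝒪 := A)

lemma finite_residueField_OL :
    letI := isLocalRing_OL A F L
    Finite (ResidueField (integralClosure A L)) := by
  letI := isLocalRing_OL A F L
  haveI := finite_OL A F L
  haveI := isLocalHom_OL A F L
  have h1 : Finite (A ⧸ maximalIdeal A) := ‹Finite (ResidueField A)›
  have h2 : Finite ((integralClosure A L) ⧸
      (maximalIdeal A • (⊤ : Submodule A (integralClosure A L)))) :=
    Submodule.finite_quotient_smul (maximalIdeal A) Module.Finite.fg_top
  have hle : (maximalIdeal A • (⊤ : Submodule A (integralClosure A L))).toAddSubgroup ≤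
      (maximalIdeal (integralClosure A L)).toAddSubgroup := by
    intro x hx
    have hx' : x ∈ maximalIdeal A • (⊤ : Submodule A (integralClosure A L)) := hx
    refine Submodule.smul_induction_on hx' ?_ ?_
    · intro a ha b _
      show a • b ∈ maximalIdeal (integralClosure A L)
      rw [Algebra.smul_def]
      refine Ideal.mul_mem_right _ _ ?_
      rw [mem_maximalIdeal, mem_nonunits_iff] at ha ⊢
      exact fun h => ha (isUnit_of_map_unit (algebraMap A (integralClosure A L)) a h)
    · intro x y hx hy
      exact (maximalIdeal (integralClosure A L)).add_mem hx hy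
  haveI h3 : Finite ((integralClosure A L) ⧸
      (maximalIdeal A • (⊤ : Submodule A (integralClosure A L))).toAddSubgroup) := h2
  haveI : (maximalIdeal A • (⊤ : Submodule A (integralClosure A L))).toAddSubgroup.FiniteIndex :=
    AddSubgroup.finiteIndex_of_finite_quotient
  haveI : (maximalIdeal (integralClosure A L)).toAddSubgroup.FiniteIndex :=
    AddSubgroup.finiteIndex_of_le hle
  exact (maximalIdeal (integralClosure A L)).toAddSubgroup.finite_quotient_of_finiteIndex

lemma finite_quotient_OL (I : Ideal (integralClosure A L)) (hI : I ≠ ⊥) :
    Finite ((integralClosure A L) ⧸ I) := by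
  letI := isLocalRing_OL A F L
  haveI := isDiscreteValuationRing_OL A F L
  haveI := isNoetherianRing_OL A F L
  haveI := finite_residueField_OL A F L
  rw [IsLocalRing.finite_quotient_iff]
  have key : ∀ (I : Ideal (integralClosure A L)) (_ : I ≠ ⊥),
      ∃ n : ℕ, I = maximalIdeal (integralClosure A L) ^ n :=
    ((IsDiscreteValuationRing.TFAE (integralClosure A L)
      (not_isField_OL A F L)).out 0 6).1 (isDiscreteValuationRing_OL A F L)
  obtain ⟨n, hn⟩ := key I hI
  exact ⟨n, hn.ge⟩

end Integers

end Fermat.Agent.S55.Local.H715
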