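import Fermat.Agent.S55.Local.Spec2
import Fermat.Agent.S55.Local.H478.FiltH2
import Fermat.Agent.S55.Local.H478.FiltKerIm
import Fermat.Agent.S55.Local.H593.CycCocycleA4d
import Fermat.Agent.S55.Local.H535.A4c
import Fermat.Agent.S55.Local.H169.AddCoh
import Fermat.Agent.S55.Local.H542.FF2Final
import Fermat.Agent.S55.Local.H608.LF
import Fermat.Agent.S55.Local.H585.LF5
import Fermat.Agent.S55.Local.H585.LF6
import Fermat.Agent.S55.Local.H724.Ramification
import Fermat.Agent.S55.Local.H312.UR1
import Fermat.Agent.S55.Local.H415.T1
import Fermat.Agent.S55.L.H661.UR4
import Fermat.Agent.S55.Local.H530.GlueT2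
import Fermat.Agent.S55.Local.H953.T3p

/-!
# S55, layer L core: the statements of `Local/Spec.lean` that are CLOSED on main

One import for consumers: every theorem below has EXACTLY the type of the frozen statement and
is proved by a landed, sorry-free leaf.  (Integration file of the architect, helper715.)

Still open (see `coord/S55-L.md`): UR5 `ExistsUnramExtStatement`, UR6' `InertiaCardStatement`,
T4 `H2CardDvdStatement`, T5 `H2CyclicStatement`.
Obsolete (no consumer any more): UR2, UR3, CY1.
-/

set_option autoImplicit false

namespace Fermat.Agent.S55.Local.Closed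

open Fermat.Agent.S55.Local

theorem filtH1 : FiltH1Statement := H478.filtH1
theorem filtH2 : FiltH2Statement := H478.filtH2
theorem filtKerIm : FiltKerImStatement := H478.filtKerIm
theorem cycCocycleIsCocycle : CycCocycleIsCocycleStatement := H593.cycCocycle_isMulCocycle₂
theorem cycCocycleCoboundaryIff : CycCocycleCoboundaryIffStatement :=
  H535.cycCocycleCoboundaryIff
theorem cycCocycleSurj : CycCocycleSurjStatement := H535.cycCocycleSurj
theorem cycCocyclePullback : CycCocyclePullbackStatement := H593.cycCocycle_pullback
theorem addH1 : AddH1Statement := H169.addH1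
theorem addH2 : AddH2Statement := H169.addH2
theorem mulH2FiniteField : MulH2FiniteFieldStatement := H542.mulH2FiniteField
theorem intOrInv : IntOrInvStatement := H608.intOrInv
theorem existsUnif : ExistsUnifStatement := H608.existsUnif
theorem intUnitsComap : IntUnitsComapStatement := H608.intUnitsComap
theorem galoisInv : GaloisInvStatement := H608.galoisInv
theorem unitsComplete : UnitsCompleteStatement := H585.unitsComplete
theorem higherUnitsFiniteIndex : HigherUnitsFiniteIndexStatement := H585.higherUnitsFiniteIndex
theorem ramification : RamificationStatement := H724.ramification724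
theorem normUnitsInt : NormUnitsIntStatement := H608.normUnitsInt
theorem unramCyclic : UnramCyclicStatement := H312.unramCyclic
theorem unramUnitsH1 : UnramUnitsH1Statement := H415.unramUnitsH1
theorem unramNormUnits : UnramNormUnitsStatement := Fermat.Agent.S55.L.H661.unramNormUnits
theorem unramUnitsH2 : UnramUnitsH2Statement :=
  H415.unramUnitsH2_of unramCyclic cycCocycleCoboundaryIff cycCocycleSurj unramNormUnits
theorem unramNormRange : UnramNormRangeStatement :=
  H530.unramNormRange_of unramNormUnits normUnitsInt
theorem cyclicNormIndex : CyclicNormIndexStatement := H953.cyclicNormIndex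
theorem cyclicH2Card : CyclicH2CardStatement := H953.cyclicH2Card

end Fermat.Agent.S55.Local.Closed
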